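import Mathlib

/-!
# Principal prime ideals in prime cyclotomic fields from an explicit product identity

Helper lemmas for showing that the ring of integers of `ℚ(ζ_p)` is a PID for small primes `p`
(used for the explicit Kummer approach to Fermat's equation for small regular exponents).
-/

set_option autoImplicit false

namespace Fermat.Agent.S11.PID

open NumberField Polynomial IsCyclotomicExtension Ideal

/-- In a Dedekind domain which is finite free over `ℤ`, an inclusion of ideals with the same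
nonzero absolute norm is an equality. -/
theorem eq_of_le_of_absNorm_eq {S : Type*} [CommRing S] [IsDedekindDomain S]
    [Module.Free ℤ S] [Module.Finite ℤ S] {I J : Ideal S} (h : I ≤ J)
    (hn : absNorm I = absNorm J) (h0 : absNorm I ≠ 0) : I = J := by
  obtain ⟨L, rfl⟩ := Ideal.dvd_iff_le.mpr h
  rw [map_mul] at hn
  have hJ0 : absNorm J ≠ 0 := by
    intro hJ
    rw [map_mul, hJ, zero_mul] at h0
    exact h0 rfl
  have hL : absNorm L = 1 :=
    Nat.eq_of_mul_eq_mul_left (Nat.pos_of_ne_zero hJ0) (hn.trans (mul_one _).symm)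
  rw [Ideal.absNorm_eq_one_iff.mp hL, Ideal.mul_top]

variable {p : ℕ} [hp : Fact p.Prime] {K : Type*} [Field K] [NumberField K]
  [hK : IsCyclotomicExtension {p} ℚ K]

/-- The chosen primitive `p`-th root of unity of `K`, as an algebraic integer. -/
noncomputable abbrev theta (p : ℕ) [Fact p.Prime] (K : Type*) [Field K] [NumberField K]
    [IsCyclotomicExtension {p} ℚ K] : 𝓞 K :=
  (zeta_spec p ℚ K).toInteger

theorem exists_aut_zeta_pow (k : ℕ) (hk : ¬ p ∣ k) :
    ∃ σ : K ≃ₐ[ℚ] K, σ (zeta p ℚ K) = zeta p ℚ K ^ k := by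
  have hirr : Irreducible (cyclotomic p ℚ) := cyclotomic.irreducible_rat hp.out.pos
  have hcop : k.Coprime p := ((Nat.Prime.coprime_iff_not_dvd hp.out).mpr hk).symm
  refine ⟨(autEquivPow K hirr).symm (ZMod.unitOfCoprime k hcop), ?_⟩
  have h1 := (zeta_spec p ℚ K).autToPow_spec ℚ
    ((autEquivPow K hirr).symm (ZMod.unitOfCoprime k hcop))
  have h2 : (zeta_spec p ℚ K).autToPow ℚ
      ((autEquivPow K hirr).symm (ZMod.unitOfCoprime k hcop)) = ZMod.unitOfCoprime k hcop :=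
    (autEquivPow K hirr).apply_symm_apply _
  rw [h2, ZMod.coe_unitOfCoprime, ZMod.val_natCast] at h1
  rw [← h1]
  exact (pow_eq_pow_mod k (zeta_spec p ℚ K).pow_eq_one).symm

theorem coe_aeval_theta_pow (g : ℤ[X]) (k : ℕ) :
    ((aeval (theta p K ^ k) g : 𝓞 K) : K) = aeval (zeta p ℚ K ^ k) g := by
  rw [RingOfIntegers.coe_eq_algebraMap, ← aeval_algebraMap_apply, map_pow]
  rfl

theorem norm_aeval_pow (g : ℤ[X]) (k : ℕ) (hk : ¬ p ∣ k) :
    Algebra.norm ℤ (aeval (theta p K ^ k) g) = Algebra.norm ℤ (aeval (theta p K) g) := by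
  obtain ⟨σ, hσ⟩ := exists_aut_zeta_pow (p := p) (K := K) k hk
  have key : ((Algebra.norm ℤ (aeval (theta p K ^ k) g) : ℤ) : ℚ) =
      ((Algebra.norm ℤ (aeval (theta p K) g) : ℤ) : ℚ) := by
    have e1 := coe_aeval_theta_pow (p := p) (K := K) g k
    have e2 := coe_aeval_theta_pow (p := p) (K := K) g 1
    rw [pow_one, pow_one] at e2
    have e3 : aeval (σ (zeta p ℚ K)) g = σ (aeval (zeta p ℚ K) g) :=
      aeval_algHom_apply (σ.toAlgHom.restrictScalars ℤ) (zeta p ℚ K) g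
    rw [Algebra.coe_norm_int, Algebra.coe_norm_int, e1, e2, ← hσ, e3]
    exact Algebra.norm_eq_of_algEquiv σ _
  exact_mod_cast key

theorem natAbs_norm_of_prod_eq (g : ℤ[X]) (c : ℤ)
    (hprod : ∏ k ∈ Finset.Ico 1 p, aeval (theta p K ^ k) g = (c : 𝓞 K))
    (k : ℕ) (hk : ¬ p ∣ k) :
    (Algebra.norm ℤ (aeval (theta p K ^ k) g)).natAbs = c.natAbs := by
  have h1 : ∏ k ∈ Finset.Ico 1 p, Algebra.norm ℤ (aeval (theta p K ^ k) g) = c ^ (p - 1) := by
    rw [← map_prod, hprod]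
    have hc : (c : 𝓞 K) = algebraMap ℤ (𝓞 K) c := by simp
    rw [hc, Algebra.norm_algebraMap, RingOfIntegers.rank,
      IsCyclotomicExtension.finrank K (cyclotomic.irreducible_rat hp.out.pos),
      Nat.totient_prime hp.out]
  have h2 : ∏ k ∈ Finset.Ico 1 p, Algebra.norm ℤ (aeval (theta p K ^ k) g) =
      (Algebra.norm ℤ (aeval (theta p K) g)) ^ (p - 1) := by
    rw [Finset.prod_congr rfl (fun j hj => norm_aeval_pow (p := p) (K := K) g j
      (by rw [Finset.mem_Ico] at hj; exact Nat.not_dvd_of_pos_of_lt hj.1 hj.2)),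
      Finset.prod_const, Nat.card_Ico]
  rw [norm_aeval_pow g k hk]
  have h4 := congrArg Int.natAbs (h2.symm.trans h1)
  rw [Int.natAbs_pow, Int.natAbs_pow] at h4
  exact Nat.pow_left_injective (by have := hp.out.two_le; omega) h4

/-- If the product of the conjugates `g(ζ^k)`, `1 ≤ k < p`, is `±ℓ^f` with `f` the order of `ℓ`
modulo `p`, then every prime of `𝓞 K` above `ℓ` is principal (generated by a conjugate). -/
theorem isPrincipal_of_prod_eq (g : ℤ[X]) (c : ℤ)
    (hprod : ∏ k ∈ Finset.Ico 1 p, aeval (theta p K ^ k) g = (c : 𝓞 K))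
    (ℓ : ℕ) [hℓ : Fact ℓ.Prime] (hℓp : ¬ ℓ ∣ p) (hc : c.natAbs = ℓ ^ orderOf (ℓ : ZMod p))
    (P : Ideal (𝓞 K)) [P.IsPrime] [P.LiesOver (span {(ℓ : ℤ)})] : P.IsPrincipal := by
  have hf := IsCyclotomicExtension.Rat.inertiaDeg_eq_of_not_dvd ℓ K P hℓp
  have hN : absNorm P = ℓ ^ orderOf (ℓ : ZMod p) := by rw [← hf, Ideal.pow_inertiaDeg ℓ P]
  have hℓP : (ℓ : 𝓞 K) ∈ P := by
    have := (Ideal.mem_of_liesOver P (span {(ℓ : ℤ)}) (ℓ : ℤ)).mp
      (Ideal.mem_span_singleton_self _)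
    simpa using this
  have hf1 : orderOf (ℓ : ZMod p) ≠ 0 := by
    intro h0
    rw [h0, pow_zero, Ideal.absNorm_eq_one_iff] at hN
    exact (Ideal.IsPrime.ne_top inferInstance) hN
  have hcP : (c : 𝓞 K) ∈ P := by
    have hdvd : (ℓ : ℤ) ∣ c := by
      rw [← Int.natAbs_dvd_natAbs, Int.natAbs_natCast, hc]
      exact dvd_pow_self _ hf1
    obtain ⟨d, rfl⟩ := hdvd
    push_cast
    exact P.mul_mem_right _ hℓP
  rw [← hprod, Ideal.IsPrime.prod_mem_iff] at hcP
  obtain ⟨k, hk, hkP⟩ := hcP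
  have hkp : ¬ p ∣ k := by
    rw [Finset.mem_Ico] at hk
    exact Nat.not_dvd_of_pos_of_lt hk.1 hk.2
  have hle : span {aeval (theta p K ^ k) g} ≤ P := (span_singleton_le_iff_mem P).mpr hkP
  have hn : absNorm (span {aeval (theta p K ^ k) g}) = absNorm P := by
    rw [absNorm_span_singleton, natAbs_norm_of_prod_eq g c hprod k hkp, hc, hN]
  have hEq := eq_of_le_of_absNorm_eq hle hn
    (by rw [hn, hN]; exact pow_ne_zero _ hℓ.out.ne_zero)
  rw [← hEq]
  exact ⟨⟨_, rfl⟩⟩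

/-- Lower bound for `ℓ ^ orderOf ℓ` from non-triviality of small powers. -/
theorem lt_pow_orderOf {n : ℕ} (x : ZMod n) (ℓ B m : ℕ) (hℓ : 1 ≤ ℓ)
    (hm : ∀ j < m, 0 < j → x ^ j ≠ 1) (h0 : orderOf x ≠ 0) (hB : B < ℓ ^ m) :
    B < ℓ ^ orderOf x := by
  have hmle : m ≤ orderOf x := by
    by_contra hlt
    exact hm (orderOf x) (not_le.mp hlt) (Nat.pos_of_ne_zero h0) (pow_orderOf_eq_one x)
  exact lt_of_lt_of_le hB (Nat.pow_le_pow_right hℓ hmle)

end Fermat.Agent.S11.PID
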